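import Fermat.Agent.Jac.Deg

/-! # Every bundle of degree zero is `O(P₁ + ... + P_g - g ε)` -/

set_option autoImplicit false
set_option linter.style.haveILetI false
set_option linter.unusedSectionVars false

universe u

open TensorProduct

namespace FLTAgent.Jac

open LineData

variable {k : Type u} [Field k] {M : Model k} {A : Type u} [CommRing A] [Algebra k A]
  {B : Type u} [CommRing B] [Algebra k B]

theorem equivalent_of_swap {L L' : LineData M A}
    (h : Equivalent (M := M.swap) L.swap L'.swap) : Equivalent L L' := by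
  obtain ⟨f, h1, h2, h3⟩ := h
  exact ⟨(⟨f.fm, f.fp, f.fn, f.comm_m, f.comm_p⟩ : Hom L L'), h2, h1, h3⟩

theorem equivalent_swap {L L' : LineData M A} (h : Equivalent L L') :
    Equivalent (M := M.swap) L.swap L'.swap := by
  obtain ⟨f, h1, h2, h3⟩ := h
  exact ⟨f.swap, h2, h1, h3⟩

theorem isSubm_unique {L L₁ L₂ : LineData M A} {J : Ideal (M.Am A)} (h₁ : IsSubm L L₁ J)
    (h₂ : IsSubm L L₂ J) : Equivalent L₁ L₂ :=
  equivalent_of_swap (IsSub.unique (M := M.swap) (toSwap_isSub h₁) (toSwap_isSub h₂))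

theorem isSubm_unique_left {L₁ L₂ L' : LineData M A} {J : Ideal (M.Am A)} {r : ℕ}
    (hJ : IsDivDeg (M := M.swap) J r) (h₁ : IsSubm L₁ L' J) (h₂ : IsSubm L₂ L' J) :
    Equivalent L₁ L₂ :=
  equivalent_of_swap (IsSub.unique_left (M := M.swap) hJ (toSwap_isSub h₁) (toSwap_isSub h₂))

theorem isSubm_congr {L L' : LineData M A} {J : Ideal (M.Am A)} (h : IsSubm L L' J)
    {L₂ L₂' : LineData M A} (e : Equivalent L L₂) (e' : Equivalent L' L₂') :
    IsSubm L₂ L₂' J := by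
  obtain ⟨f, h1, h2, h3, h4, h5⟩ :=
    IsSub.congr (M := M.swap) (toSwap_isSub h) (equivalent_swap e) (equivalent_swap e')
  exact ⟨(⟨f.fm, f.fp, f.fn, f.comm_m, f.comm_p⟩ : Hom L₂' L₂), h2, h1, h3, h4, h5⟩

theorem exists_isSubm_of_right (L' : LineData M A) {J : Ideal (M.Am A)} {r : ℕ}
    (h : IsDivDeg (M := M.swap) J r) : ∃ L, IsSubm L L' J := by
  obtain ⟨L, f, h1, h2, h3, h4, h5⟩ := exists_isSub_of_right (M := M.swap) L'.swap h
  exact ⟨L.swap, ⟨f.fm, f.fp, f.fn, f.comm_m, f.comm_p⟩, h2, h1, h3, h4, h5⟩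

theorem fp_surjective_of_pow_mem {L L' : LineData M A} {J : Ideal (M.Am A)} {f : Hom L' L}
    (hr : LinearMap.range f.fm = J • ⊤)
    (hiff : ∀ m, m ∈ LinearMap.range f.fp ↔ L.ρp m ∈ LinearMap.range f.fn)
    {i : ℕ} (hJ : ((1 : A) ⊗ₜ[k] M.y) ^ i ∈ J) : Function.Surjective f.fp := by
  intro m
  refine (hiff m).2 ?_
  have h := ipA_smul_mem_range_fn (M := M.swap) f.swap hr hJ
    ((M.xU A : M.Apm A) ^ i • L.ρp m)
  change M.imA A _ • _ ∈ LinearMap.range f.fn at h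
  rwa [map_pow, imA_one_tmul_y, smul_smul, ← mul_pow, Units.inv_mul, one_pow, one_smul] at h

theorem tmul_sub_mem_map_ker (σ : M.Rp →ₐ[k] A) (f : A →ₐ[k] B) (z : M.Ap B) :
    z - algebraMap B (M.Ap B) (M.ptP (f.comp σ) z) ∈
      (RingHom.ker (M.ptP σ)).map (M.mapP f) := by
  induction z using TensorProduct.induction_on with
  | zero => simp
  | add z z' h h' =>
    rw [map_add, map_add, add_sub_add_comm]
    exact Ideal.add_mem _ h h'
  | tmul b r =>
    have h : (1 : A) ⊗ₜ[k] r - algebraMap A (M.Ap A) (σ r) ∈ RingHom.ker (M.ptP σ) := by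
      simp [RingHom.mem_ker, Model.ptP]
    have h' := Ideal.mul_mem_left _ (algebraMap B (M.Ap B) b)
      (Ideal.mem_map_of_mem (M.mapP f) h)
    convert h' using 1
    rw [map_sub, mul_sub]
    simp [Model.mapP, Model.ptP, Algebra.TensorProduct.algebraMap_apply]

theorem map_ker_ptP (σ : M.Rp →ₐ[k] A) (f : A →ₐ[k] B) :
    (RingHom.ker (M.ptP σ)).map (M.mapP f) = RingHom.ker (M.ptP (f.comp σ)) := by
  refine le_antisymm (Ideal.map_le_iff_le_comap.2 fun z hz => ?_) fun z hz => ?_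
  · have key : ∀ z : M.Ap A, M.ptP (f.comp σ) (M.mapP f z) = f (M.ptP σ z) := fun z => by
      induction z using TensorProduct.induction_on with
      | zero => simp
      | tmul a r => simp [Model.mapP, Model.ptP]
      | add z z' h h' => simp only [map_add, h, h']
    rw [Ideal.mem_comap, RingHom.mem_ker, key, RingHom.mem_ker.1 hz, map_zero]
  · have h := tmul_sub_mem_map_ker σ f z
    rwa [RingHom.mem_ker.1 hz, map_zero, sub_zero] at h

theorem map_ker_ptM (σ : M.Rm →ₐ[k] A) (f : A →ₐ[k] B) :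
    (RingHom.ker (M.ptM σ)).map (M.mapM f) = RingHom.ker (M.ptM (f.comp σ)) :=
  map_ker_ptP (M := M.swap) σ f

/-- The ideal of the base point at infinity. -/
noncomputable def epsIdeal (e : M.Rm →ₐ[k] k) (A : Type u) [CommRing A] [Algebra k A] :
    Ideal (M.Am A) :=
  RingHom.ker (M.ptM (Model.constPt e A))

theorem map_epsIdeal (e : M.Rm →ₐ[k] k) (f : A →ₐ[k] B) :
    (epsIdeal e A).map (M.mapM f) = epsIdeal e B := by
  rw [epsIdeal, epsIdeal, map_ker_ptM]
  congr 2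
  ext r
  exact f.commutes (e r)

theorem isDivDeg_epsIdeal (e : M.Rm →ₐ[k] k) :
    IsDivDeg (M := M.swap) (epsIdeal e A) 1 :=
  isDivDeg_ker_ptP (M := M.swap) (Model.constPt e A)

variable {K : Type u} [Field K] [Algebra k K]

theorem isDivDeg_top : IsDivDeg (⊤ : Ideal (M.Ap K)) 0 := by
  haveI : Subsingleton (M.Ap K ⧸ (⊤ : Ideal (M.Ap K))) := Ideal.Quotient.subsingleton_iff.2 rfl
  refine ⟨inferInstance, inferInstance, fun p => ?_⟩
  rw [Module.rankAtStalk_eq_finrank_of_free, Module.finrank_zero_of_subsingleton]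
  rfl

theorem isDivDeg_epsIdeal_pow (e : M.Rm →ₐ[k] k) (n : ℕ) :
    IsDivDeg (M := M.swap) (epsIdeal e K ^ n) n := by
  induction n with
  | zero => rw [pow_zero, Ideal.one_eq_top]; exact isDivDeg_top (M := M.swap)
  | succ n ih =>
    rw [pow_succ]
    exact IsDivDeg.mul (M := M.swap) ih (isDivDeg_epsIdeal e)

/-- A proper nonzero ideal vanishes at a point. -/
theorem exists_point_of_ne_top [IsAlgClosed k] {I : Ideal (M.Ap k)} (h0 : I ≠ ⊥) (h : I ≠ ⊤) :
    ∃ σ : M.Rp →ₐ[k] k, I ≤ RingHom.ker (M.ptP σ) := by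
  obtain ⟨P, hP, hle⟩ := Ideal.exists_le_maximal I h
  haveI := hP
  letI : Field (M.Ap k ⧸ P) := Ideal.Quotient.field P
  haveI : Module.Finite k (M.Ap k ⧸ P) :=
    finite_quot_Ap fun hb => h0 (le_bot_iff.1 (hle.trans hb.le))
  have hbij : Function.Bijective (Algebra.ofId k (M.Ap k ⧸ P)) :=
    IsAlgClosed.algebraMap_bijective_of_isIntegral
  let τ : M.Ap k →ₐ[k] k :=
    (AlgEquiv.ofBijective _ hbij).symm.toAlgHom.comp (Ideal.Quotient.mkₐ k P)
  refine ⟨τ.comp Algebra.TensorProduct.includeRight, fun z hz => ?_⟩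
  have hτ : M.ptP (τ.comp Algebra.TensorProduct.includeRight) = τ := by
    refine Algebra.TensorProduct.ext (Subsingleton.elim _ _) (AlgHom.ext fun r => ?_)
    simp [Model.ptP]
  rw [RingHom.mem_ker, hτ]
  show (AlgEquiv.ofBijective _ hbij).symm (Ideal.Quotient.mk P z) = 0
  rw [Ideal.Quotient.eq_zero_iff_mem.2 (hle hz), map_zero]

/-- `n` extends across infinity if its multiples by the elements of `J` extend and vanish on
`J`. -/
theorem mem_range_ρm_of_forall [IsAlgClosed k] {L : LineData M k} {J : Ideal (M.Am k)} {i : ℕ}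
    (hJ : ((1 : k) ⊗ₜ[k] M.y) ^ i ∈ J) {n : L.N}
    (h : ∀ t ∈ J, ∃ b ∈ J • (⊤ : Submodule (M.Am k) L.Mm), L.ρm b = M.imA k t • n) :
    ∃ m, L.ρm m = n := by
  haveI := (M.dedekind_m k).1
  haveI := (M.dedekind_m k).2
  set u : M.Am k := ((1 : k) ⊗ₜ[k] M.y) ^ i
  obtain ⟨J', hJ'⟩ := Ideal.dvd_iff_le.2 ((Ideal.span_singleton_le_iff_mem (I := J)).2 hJ)
  have key : ∀ z ∈ J' * J, ∃ b ∈ (J' * J) • (⊤ : Submodule (M.Am k) L.Mm),
      L.ρm b = M.imA k z • n := by
    intro z hz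
    refine Submodule.mul_induction_on hz (fun s hs t ht => ?_) fun z z' hz hz' => ?_
    · obtain ⟨b, hb, e⟩ := h t ht
      refine ⟨s • b, ?_, ?_⟩
      · rw [← smul_eq_mul J' J, Submodule.smul_assoc]
        exact Submodule.smul_mem_smul hs hb
      · rw [ρm_smul, e, map_mul, mul_smul]
    · obtain ⟨b, hb, e⟩ := hz
      obtain ⟨b', hb', e'⟩ := hz'
      exact ⟨b + b', Submodule.add_mem _ hb hb', by rw [map_add, e, e', map_add, add_smul]⟩
  obtain ⟨b, hb, e⟩ := key u (by rw [mul_comm, ← hJ']; exact Ideal.subset_span rfl)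
  rw [mul_comm, ← hJ', Submodule.ideal_span_singleton_smul,
    Submodule.mem_smul_pointwise_iff_exists] at hb
  obtain ⟨m, -, rfl⟩ := hb
  refine ⟨m, ?_⟩
  have hu : IsUnit (M.imA k u) := by
    rw [map_pow, imA_one_tmul_y]; exact (Units.isUnit _).pow i
  exact hu.smul_left_cancel.1 (by rw [← ρm_smul, e])

/-- A section of `L + n ε` given on `U₊`. -/
def Pole (e : M.Rm →ₐ[k] k) (n : ℕ) (L : LineData M k) (a : L.Mp) : Prop :=
  a ≠ 0 ∧ ∀ t ∈ epsIdeal e k ^ n, ∃ b, L.ρm b = M.imA k t • L.ρp a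

theorem pow_mem_epsIdeal {e : M.Rm →ₐ[k] k} (he : e M.y = 0) (n : ℕ) :
    ((1 : A) ⊗ₜ[k] M.y) ^ n ∈ epsIdeal e A ^ n :=
  Ideal.pow_mem_pow (by simp [epsIdeal, RingHom.mem_ker, Model.ptM, Model.constPt, he]) n

theorem exists_plus {e : M.Rm →ₐ[k] k} (he : e M.y = 0) (n : ℕ) (L : LineData M k) :
    ∃ (L' : LineData M k) (f : Hom L L'), Function.Bijective f.fp ∧ Function.Injective f.fm ∧
      Function.Injective f.fn ∧ LinearMap.range f.fm = epsIdeal e k ^ n • ⊤ ∧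
      L'.chi = L.chi + n := by
  obtain ⟨L', hL'⟩ := exists_isSubm_of_right L (isDivDeg_epsIdeal_pow (K := k) e n)
  have hc := isSubm_chi (isDivDeg_epsIdeal_pow (K := k) e n) hL'
  obtain ⟨f, h1, h2, h3, h4, h5⟩ := hL'
  exact ⟨L', f, ⟨h1, fp_surjective_of_pow_mem h4 h5 (pow_mem_epsIdeal he n)⟩, h2, h3, h4,
    by omega⟩

/-- `L` arises from `Lp` by subtracting `ε` and adding a point. -/
def Step (e : M.Rm →ₐ[k] k) (Lp L : LineData M k) : Prop :=
  ∃ D : LineData M k, IsSubm Lp D (epsIdeal e k) ∧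
    ((∃ σ : M.Rp →ₐ[k] k, IsSub L D (RingHom.ker (M.ptP σ))) ∨
      ∃ σ : M.Rm →ₐ[k] k, IsSubm L D (RingHom.ker (M.ptM σ)))

/-- `L = O(P₁ + ... + P_j - j ε)`. -/
def Reach (e : M.Rm →ₐ[k] k) : ℕ → LineData M k → Prop
  | 0, L => Equivalent (LineData.unit M k) L
  | j + 1, L => ∃ Lp, Reach e j Lp ∧ Step e Lp L

variable [IsAlgClosed k]

/-- A section of `L + n ε`, `n ≠ 0`, has a zero. -/
theorem exists_zero {e : M.Rm →ₐ[k] k} (he : e M.y = 0) {n : ℕ} (hn : n ≠ 0) {L : LineData M k}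
    (hchi : L.chi = 1 - (M.genus : ℤ)) {a : L.Mp} (hW : Pole e n L a) :
    (∃ σ : M.Rp →ₐ[k] k, a ∈ RingHom.ker (M.ptP σ) • (⊤ : Submodule (M.Ap k) L.Mp)) ∨
      ∃ τ : M.Rm →ₐ[k] k, τ M.y = 0 ∧ ∀ t ∈ epsIdeal e k ^ n, ∀ b : L.Mm,
        L.ρm b = M.imA k t • L.ρp a →
          b ∈ RingHom.ker (M.ptM τ) • (⊤ : Submodule (M.Am k) L.Mm) := by
  haveI := (M.dedekind_p k).1
  haveI := (M.dedekind_m k).1
  by_cases hc : content (R := M.Ap k) a = ⊤
  swap
  · obtain ⟨σ, hσ⟩ := exists_point_of_ne_top (content_ne_bot hW.1) hc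
    refine Or.inl ⟨σ, Submodule.smul_mono_left hσ ?_⟩
    rw [content_smul_top]
    exact Submodule.mem_span_singleton_self a
  obtain ⟨L', f, hfp, hfm, hfn, hr, hchi'⟩ := exists_plus he n L
  obtain ⟨b', hb'⟩ := mem_range_ρm_of_forall (pow_mem_epsIdeal he n) (n := L'.ρp (f.fp a))
    fun t ht => by
      obtain ⟨b, hb⟩ := hW.2 t ht
      refine ⟨f.fm b, hr ▸ LinearMap.mem_range_self f.fm b, ?_⟩
      rw [← f.comm_m, hb, map_smul, f.comm_p]
  have ha' : f.fp a ≠ 0 := fun h => hW.1 (hfp.1 (h.trans (map_zero f.fp).symm))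
  have hb0 : b' ≠ 0 := fun h => ha' <| L'.ρp_inj <| by
    rw [← hb', h, map_zero]; exact (map_zero L'.ρp).symm
  have hgen : ∀ m : L'.Mp, ∃ r : M.Ap k, r • f.fp a = m := fun m => by
    obtain ⟨m, rfl⟩ := hfp.2 m
    have hm : m ∈ content (R := M.Ap k) a • (⊤ : Submodule (M.Ap k) L.Mp) := by
      rw [hc, Submodule.top_smul]; trivial
    rw [content_smul_top] at hm
    obtain ⟨r, rfl⟩ := Submodule.mem_span_singleton.1 hm
    exact ⟨r, (map_smul f.fp r a).symm⟩
  have hN : ∀ z : L'.N, ∃ c : M.Apm k, c • L'.ρp (f.fp a) = z := fun z => by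
    obtain ⟨i, m, hm⟩ := L'.ρp_surj z
    obtain ⟨r, rfl⟩ := hgen m
    refine ⟨(↑((M.xU k)⁻¹ ^ i) : M.Apm k) * M.ipA k r, ?_⟩
    rw [mul_smul, ← ρp_smul, ← hm, smul_smul, ← Units.val_pow_eq_pow_val, ← Units.val_mul,
      inv_pow, inv_mul_cancel, Units.val_one, one_smul]
  by_cases hc' : content (R := M.Am k) b' = ⊤
  · exfalso
    let g : Hom (LineData.unit M k) L' :=
      { fp := LinearMap.toSpanSingleton _ _ (f.fp a)
        fm := LinearMap.toSpanSingleton _ _ b'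
        fn := LinearMap.toSpanSingleton _ _ (L'.ρp (f.fp a))
        comm_p := fun r => (ρp_smul L' r _).symm
        comm_m := fun r => by
          show M.imA k r • L'.ρp (f.fp a) = L'.ρm (r • b')
          rw [ρm_smul, hb'] }
    have hgn : Function.Injective g.fn := (injective_iff_map_eq_zero g.fn).2 fun t ht => by
      obtain ⟨i, r, hr⟩ := LineData.exists_ipA_eq (M := M) (A := k) t
      have h0 : L'.ρp (r • f.fp a) = L'.ρp 0 := by
        rw [ρp_smul, ← hr, mul_smul, show t • L'.ρp (f.fp a) = 0 from ht, smul_zero, map_zero]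
      have hr0 : r = 0 :=
        (smul_eq_zero_invertible (Q := L'.Mp) (L'.ρp_inj h0)).resolve_right ha'
      rw [hr0, map_zero] at hr
      exact ((M.xU k).isUnit.pow i).mul_right_eq_zero.1 hr
    have heq : Equivalent (LineData.unit M k) L' := by
      refine ⟨g, ⟨(injective_iff_map_eq_zero g.fp).2 fun r hr =>
          (smul_eq_zero_invertible (Q := L'.Mp) hr).resolve_right ha', hgen⟩,
        ⟨(injective_iff_map_eq_zero g.fm).2 fun r hr =>
          (smul_eq_zero_invertible (Q := L'.Mm) hr).resolve_right hb0, fun m => ?_⟩, hgn, hN⟩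
      have hm : m ∈ content (R := M.Am k) b' • (⊤ : Submodule (M.Am k) L'.Mm) := by
        rw [hc', Submodule.top_smul]; trivial
      rw [content_smul_top] at hm
      exact Submodule.mem_span_singleton.1 hm
    rw [← chi_congr heq, chi_unit, hchi] at hchi'
    omega
  obtain ⟨τ, hτ⟩ := exists_point_of_ne_top (M := M.swap) (content_ne_bot hb0) hc'
  change content (R := M.Am k) b' ≤ RingHom.ker (M.ptM τ) at hτ
  haveI hprime : (RingHom.ker (M.ptM τ)).IsPrime := RingHom.ker_isPrime _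
  have hb : b' ∈ RingHom.ker (M.ptM τ) • (⊤ : Submodule (M.Am k) L'.Mm) := by
    refine Submodule.smul_mono_left hτ ?_
    rw [content_smul_top]
    exact Submodule.mem_span_singleton_self b'
  have hy : τ M.y = 0 := by
    have hpow : ∀ m : L'.Mm, ∃ i : ℕ, ((1 : k) ⊗ₜ[k] M.y) ^ i • m ∈
        RingHom.ker (M.ptM τ) • (⊤ : Submodule (M.Am k) L'.Mm) := fun m => by
      obtain ⟨c, hc⟩ := hN (L'.ρm m)
      obtain ⟨i, r, hr⟩ := LineData.exists_ipA_eq (M := M.swap) c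
      change (↑(M.xU k)⁻¹ : M.Apm k) ^ i * c = M.imA k r at hr
      refine ⟨i, ?_⟩
      have e : ((1 : k) ⊗ₜ[k] M.y) ^ i • m = r • b' := L'.ρm_inj <| by
        rw [ρm_smul, ρm_smul, hb', map_pow, imA_one_tmul_y, ← hc, smul_smul, hr]
      rw [e]
      exact Submodule.smul_mem _ r hb
    obtain ⟨S, hS⟩ := exists_sum_apply_eq_one (M.Am k) L'.Mm
    obtain ⟨p, -, hp⟩ : ∃ p ∈ S, p.1 p.2 ∉ RingHom.ker (M.ptM τ) := by
      by_contra h
      push Not at h
      exact hprime.ne_top ((Ideal.eq_top_iff_one _).2 (hS ▸ Ideal.sum_mem _ h))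
    obtain ⟨i, hi⟩ := hpow p.2
    have h1 := content_le_of_mem_smul hi
      (apply_mem_content (R := M.Am k) p.1 (((1 : k) ⊗ₜ[k] M.y) ^ i • p.2))
    rw [map_smul, smul_eq_mul] at h1
    have h2 := hprime.mem_of_pow_mem i ((hprime.mem_or_mem h1).resolve_right hp)
    simpa [RingHom.mem_ker, Model.ptM] using h2
  refine Or.inr ⟨τ, hy, fun t ht b hbt => ?_⟩
  have e1 : f.fm b = t • b' := L'.ρm_inj <| by
    rw [← f.comm_m, hbt, map_smul, f.comm_p, ρm_smul, hb']
  have e2 : f.fm b ∈ Submodule.map f.fm (RingHom.ker (M.ptM τ) • ⊤) := by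
    rw [Submodule.map_smul'', Submodule.map_top, hr, ← Submodule.smul_assoc, smul_eq_mul,
      mul_comm, ← smul_eq_mul, Submodule.smul_assoc, e1]
    exact Submodule.smul_mem_smul ht hb
  obtain ⟨b₀, hb₀, e3⟩ := Submodule.mem_map.1 e2
  rwa [← hfm e3]

theorem exists_step {e : M.Rm →ₐ[k] k} (he : e M.y = 0) {n : ℕ} {L : LineData M k}
    (hchi : L.chi = 1 - (M.genus : ℤ)) {a : L.Mp} (hW : Pole e (n + 1) L a) :
    ∃ Lp : LineData M k, Step e Lp L ∧ Lp.chi = 1 - (M.genus : ℤ) ∧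
      ∃ a' : Lp.Mp, Pole e n Lp a' := by
  obtain ⟨D, hdisj, hDchi, a₀, hW₀⟩ : ∃ D : LineData M k,
      ((∃ σ : M.Rp →ₐ[k] k, IsSub L D (RingHom.ker (M.ptP σ))) ∨
        ∃ σ : M.Rm →ₐ[k] k, IsSubm L D (RingHom.ker (M.ptM σ))) ∧
      D.chi = L.chi - 1 ∧ ∃ a₀ : D.Mp, Pole e (n + 1) D a₀ := by
    rcases exists_zero he (Nat.succ_ne_zero n) hchi hW with ⟨σ, ha⟩ | ⟨τ, hy, hb⟩
    · obtain ⟨D, hD⟩ := exists_isSub L (isDivDeg_ker_ptP σ)
      have hc := isSub_chi (isDivDeg_ker_ptP σ) hD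
      refine ⟨D, Or.inl ⟨σ, hD⟩, hc, ?_⟩
      obtain ⟨g, hgp, hgm, hgn, hr, hiff⟩ := hD
      obtain ⟨a₀, rfl⟩ : a ∈ LinearMap.range g.fp := by rw [hr]; exact ha
      refine ⟨a₀, fun h => hW.1 (by rw [h, map_zero]), fun t ht => ?_⟩
      obtain ⟨b, hbt⟩ := hW.2 t ht
      have hbt' : L.ρm b = g.fn (M.imA k t • D.ρp a₀) := by rw [hbt, map_smul, g.comm_p]
      obtain ⟨b₀, rfl⟩ := (hiff b).2 ⟨_, hbt'.symm⟩
      exact ⟨b₀, hgn (by rw [g.comm_m, hbt'])⟩
    · have hdiv : IsDivDeg (M := M.swap) (RingHom.ker (M.ptM τ)) 1 :=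
        isDivDeg_ker_ptP (M := M.swap) τ
      obtain ⟨D, hD⟩ := exists_isSubm L hdiv
      have hc := isSubm_chi hdiv hD
      refine ⟨D, Or.inr ⟨τ, hD⟩, hc, ?_⟩
      obtain ⟨g, hgp, hgm, hgn, hr, hiff⟩ := hD
      obtain ⟨a₀, rfl⟩ := fp_surjective_of_pow_mem hr hiff (i := 1)
        (by simp [RingHom.mem_ker, Model.ptM, hy]) a
      refine ⟨a₀, fun h => hW.1 (by rw [h, map_zero]), fun t ht => ?_⟩
      obtain ⟨b, hbt⟩ := hW.2 t ht
      obtain ⟨b₀, rfl⟩ : b ∈ LinearMap.range g.fm := by rw [hr]; exact hb t ht b hbt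
      exact ⟨b₀, hgn (by rw [g.comm_m, hbt, map_smul, g.comm_p])⟩
  obtain ⟨Lp, hLp⟩ := exists_isSubm_of_right D (isDivDeg_epsIdeal (A := k) e)
  have hc := isSubm_chi (isDivDeg_epsIdeal (A := k) e) hLp
  refine ⟨Lp, ⟨D, hLp, hdisj⟩, by omega, ?_⟩
  obtain ⟨h, h1, h2, h3, hr, -⟩ := hLp
  refine ⟨h.fp a₀, fun h0 => hW₀.1 (h1 (h0.trans (map_zero h.fp).symm)), fun t ht => ?_⟩
  refine mem_range_ρm_of_forall (J := epsIdeal e k) (i := 1)
    (by simpa using pow_mem_epsIdeal he 1) fun s hs => ?_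
  obtain ⟨b, hb⟩ := hW₀.2 (t * s) (by rw [pow_succ]; exact Ideal.mul_mem_mul ht hs)
  refine ⟨h.fm b, hr ▸ LinearMap.mem_range_self h.fm b, ?_⟩
  rw [← h.comm_m, hb, map_smul, h.comm_p, map_mul, mul_comm, mul_smul]

theorem reach_of_pole {e : M.Rm →ₐ[k] k} (he : e M.y = 0) :
    ∀ (n : ℕ) (L : LineData M k), L.chi = 1 - (M.genus : ℤ) →
      (∃ a : L.Mp, Pole e n L a) → Reach e n L := by
  intro n
  induction n with
  | zero =>
    intro L hchi ⟨a, ha, h⟩
    obtain ⟨b, hb⟩ := h 1 (by rw [pow_zero, Ideal.one_eq_top]; trivial)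
    rw [map_one, one_smul] at hb
    refine Equivalent.symm (equivalent_unit_of_chi_eq L (fun hbot => ha ?_) hchi)
    have hmem : (a, b) ∈ L.H0 := by
      show L.ρp a - L.ρm b = 0
      rw [hb, sub_self]
    rw [hbot, Submodule.mem_bot] at hmem
    exact congrArg Prod.fst hmem
  | succ n ih =>
    intro L hchi ⟨a, ha⟩
    obtain ⟨Lp, hs, hc, hw⟩ := exists_step he hchi ha
    exact ⟨Lp, ih Lp hc hw, hs⟩

/-- Every bundle of degree zero is reached in `g` steps. -/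
theorem reach_of_chi {e : M.Rm →ₐ[k] k} (he : e M.y = 0) {L : LineData M k}
    (hchi : L.chi = (LineData.unit M k).chi) : Reach e M.genus L := by
  rw [chi_unit] at hchi
  obtain ⟨L', f, hfp, hfm, hfn, hr, hc⟩ := exists_plus he M.genus L
  have hne : L'.H0 ≠ ⊥ := fun h => by
    rw [LineData.chi, h, finrank_bot] at hc
    omega
  obtain ⟨⟨a', b'⟩, hab, hne'⟩ := Submodule.exists_mem_ne_zero_of_ne_bot hne
  have hρ : L'.ρp a' = L'.ρm b' := sub_eq_zero.1 hab
  obtain ⟨a, rfl⟩ := hfp.2 a'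
  refine reach_of_pole he _ L hchi ⟨a, fun h => hne' ?_, fun t ht => ?_⟩
  · subst h
    rw [map_zero] at hρ
    refine Prod.ext (map_zero f.fp) (L'.ρm_inj ?_)
    rw [← hρ, map_zero]
    exact (map_zero L'.ρm).symm
  · obtain ⟨b, hb⟩ : t • b' ∈ LinearMap.range f.fm := by
      rw [hr]; exact Submodule.smul_mem_smul ht Submodule.mem_top
    refine ⟨b, hfn ?_⟩
    rw [f.comm_m, hb, ρm_smul, map_smul, f.comm_p, hρ]

/-- On the overlap a point of `U₊` may be viewed in `U₋`. -/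
theorem isSubm_of_overlap (π : M.Rpm →ₐ[k] k) {L D : LineData M k}
    (h : IsSub L D (RingHom.ker (M.ptP (π.comp M.ip)))) :
    IsSubm L D (RingHom.ker (M.ptM (π.comp M.im))) := by
  set I : Ideal (M.Ap k) := RingHom.ker (M.ptP (π.comp M.ip))
  set J : Ideal (M.Am k) := RingHom.ker (M.ptM (π.comp M.im))
  have hI : IsDivDeg I 1 := isDivDeg_ker_ptP _
  have hJ : IsDivDeg (M := M.swap) J 1 := isDivDeg_ker_ptP (M := M.swap) _
  obtain ⟨g, hgp, hgm, hgn, hr, hiff⟩ := h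
  let P : M.Apm k →ₐ[k] k :=
    Algebra.TensorProduct.lift (AlgHom.id k k) π fun _ _ => mul_comm _ _
  have hPp : ∀ z, P (M.ipA k z) = M.ptP (π.comp M.ip) z := fun z => by
    induction z using TensorProduct.induction_on with
    | zero => simp
    | tmul c r => simp [P, Model.ipA, Model.ptP]
    | add z z' h h' => simp only [map_add, h, h']
  have hPm : ∀ z, P (M.imA k z) = M.ptM (π.comp M.im) z := fun z => by
    induction z using TensorProduct.induction_on with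
    | zero => simp
    | tmul c r => simp [P, Model.imA, Model.ptM]
    | add z z' h h' => simp only [map_add, h, h']
  have hIne : I • (⊤ : Submodule (M.Ap k) L.Mp) ≠ ⊤ := fun htop => by
    haveI := hI.finite
    haveI : IsScalarTower k (M.Ap k) L.Mp := L.towMp
    obtain ⟨-, h1⟩ := finrank_quot_smul (R := M.Ap k) (Q := L.Mp) k I
    haveI : Subsingleton (L.Mp ⧸ I • (⊤ : Submodule (M.Ap k) L.Mp)) :=
      Submodule.Quotient.subsingleton_iff.2 htop
    rw [Module.finrank_zero_of_subsingleton, finrank_eq_of_isDivDeg hI] at h1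
    exact absurd h1 (by omega)
  haveI hImax : I.IsMaximal :=
    RingHom.ker_isMaximal_of_surjective _ fun c => ⟨algebraMap k (M.Ap k) c, AlgHom.commutes _ c⟩
  have hmem : ∀ m, L.ρp m ∈ LinearMap.range g.fn → m ∈ LinearMap.range g.fp := by
    rintro m ⟨z, hz⟩
    obtain ⟨i, a, ha⟩ := D.ρp_surj z
    set X : M.Ap k := ((1 : k) ⊗ₜ[k] M.x) ^ i
    have hX : g.fp a = X • m := L.ρp_inj <| by
      rw [← g.comm_p, ← ha, map_smul, hz, ρp_smul, map_pow, ipA_one_tmul_x]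
    have hXI : X ∉ I := fun hX => by
      have h1 : P ((M.xU k : M.Apm k) ^ i) = 0 := by
        rw [← ipA_one_tmul_x, ← map_pow, hPp]; exact hX
      exact (((M.xU k).isUnit.pow i).map P).ne_zero h1
    obtain ⟨u, w, hw, huw⟩ := hImax.exists_inv hXI
    rw [← one_smul (M.Ap k) m, ← huw, add_smul, mul_smul, ← hX]
    refine Submodule.add_mem _ (Submodule.smul_mem _ _ ⟨a, rfl⟩) ?_
    rw [hr]
    exact Submodule.smul_mem_smul hw Submodule.mem_top
  have hle : J • (⊤ : Submodule (M.Am k) L.Mm) ≤ LinearMap.range g.fm := by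
    refine Submodule.smul_le.2 fun t ht m _ => (hiff _).2 ?_
    obtain ⟨i, r, hr'⟩ := LineData.exists_ipA_eq (M := M) (A := k) (M.imA k t)
    have hrI : r ∈ I := by
      rw [RingHom.mem_ker, ← hPp, ← hr', map_mul, hPm, RingHom.mem_ker.1 ht, mul_zero]
    have h' := Submodule.smul_mem _ (↑((M.xU k)⁻¹ ^ i) : M.Apm k)
      (ipA_smul_mem_range_fn g hr hrI (L.ρm m))
    rwa [← hr', smul_smul, ← mul_assoc, ← Units.val_pow_eq_pow_val, ← Units.val_mul, inv_pow,
      inv_mul_cancel, Units.val_one, one_mul, ← ρm_smul] at h'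
  have hne : LinearMap.range g.fm ≠ ⊤ := fun htop => hIne <| eq_top_iff.2 fun m _ => by
    rw [← hr]
    refine hmem m ?_
    obtain ⟨i, b, hb⟩ := L.ρm_surj (L.ρp m)
    obtain ⟨b₀, rfl⟩ : b ∈ LinearMap.range g.fm := by rw [htop]; trivial
    refine ⟨(↑(M.xU k ^ i) : M.Apm k) • D.ρm b₀, ?_⟩
    rw [map_smul, g.comm_m, ← hb, smul_smul, ← Units.val_pow_eq_pow_val, ← Units.val_mul,
      inv_pow, mul_inv_cancel, Units.val_one, one_smul]
  refine ⟨g, hgp, hgm, hgn, le_antisymm ?_ hle, fun m => ⟨?_, hmem m⟩⟩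
  · intro m hm
    by_contra hmJ
    haveI : Module.Finite k (M.Am k ⧸ J) := hJ.finite
    haveI : IsScalarTower k (M.Am k) L.Mm := L.towMm
    obtain ⟨-, h1⟩ := finrank_quot_smul (R := M.Am k) (Q := L.Mm) k J
    rw [show Module.finrank k (M.Am k ⧸ J) = 1 from finrank_eq_of_isDivDeg (M := M.swap) hJ] at h1
    refine hne (eq_top_iff.2 fun m' _ => ?_)
    obtain ⟨c, hc⟩ := (finrank_eq_one_iff_of_nonzero' (Submodule.Quotient.mk m)
      fun h0 => hmJ ((Submodule.Quotient.mk_eq_zero _).1 h0)).1 h1 (Submodule.Quotient.mk m')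
    rw [← Submodule.Quotient.mk_smul, Submodule.Quotient.eq] at hc
    have h2 := Submodule.sub_mem _
      (Submodule.smul_of_tower_mem (LinearMap.range g.fm) c hm) (hle hc)
    simpa using h2
  · rintro ⟨a, rfl⟩
    exact ⟨D.ρp a, g.comm_p a⟩

end FLTAgent.Jac
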