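import Fermat.Agent.Jac.GeomIntegral

/-! # Schemes over an algebraically closed field: testing on rational points -/

set_option autoImplicit false
set_option linter.style.haveILetI false

universe u

open CategoryTheory CategoryTheory.Limits AlgebraicGeometry Topology

namespace FLTAgent.Jac

theorem exists_isLocallyClosed_mem {T : Type*} [TopologicalSpace T] {s : Set T}
    (hs : IsConstructible s) :
    (∀ Z, IsLocallyClosed Z → ∀ x ∈ Z ∩ s, ∃ W, IsLocallyClosed W ∧ x ∈ W ∧ W ⊆ Z ∩ s) ∧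
      ∀ Z, IsLocallyClosed Z → ∀ x ∈ Z ∩ sᶜ, ∃ W, IsLocallyClosed W ∧ x ∈ W ∧ W ⊆ Z ∩ sᶜ := by
  induction hs using IsConstructible.empty_union_induction with
  | open_retrocompact U hU _ =>
    exact ⟨fun Z hZ x hx => ⟨Z ∩ U, hZ.inter hU.isLocallyClosed, hx, subset_rfl⟩,
      fun Z hZ x hx => ⟨Z ∩ Uᶜ, hZ.inter hU.isClosed_compl.isLocallyClosed, hx, subset_rfl⟩⟩
  | union s _ t _ h h' =>
    refine ⟨fun Z hZ x hx => ?_, fun Z hZ x hx => ?_⟩
    · rcases hx.2 with h0 | h0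
      · obtain ⟨W, hW, hxW, hWs⟩ := h.1 Z hZ x ⟨hx.1, h0⟩
        exact ⟨W, hW, hxW, hWs.trans (Set.inter_subset_inter_right _ Set.subset_union_left)⟩
      · obtain ⟨W, hW, hxW, hWs⟩ := h'.1 Z hZ x ⟨hx.1, h0⟩
        exact ⟨W, hW, hxW, hWs.trans (Set.inter_subset_inter_right _ Set.subset_union_right)⟩
    · simp only [Set.compl_union] at hx ⊢
      obtain ⟨W, hW, hxW, hWs⟩ := h.2 Z hZ x ⟨hx.1, hx.2.1⟩
      obtain ⟨W', hW', hxW', hWt⟩ := h'.2 W hW x ⟨hxW, hx.2.2⟩
      exact ⟨W', hW', hxW', fun y hy =>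
        ⟨(hWs (hWt hy).1).1, (hWs (hWt hy).1).2, (hWt hy).2⟩⟩
  | compl s _ h => exact ⟨h.2, by simpa using h.1⟩

variable {k : Type u} [Field k] [IsAlgClosed k]

theorem exists_rational_point {X : Scheme.{u}} (x : X ⟶ Spec (CommRingCat.of k))
    [LocallyOfFiniteType x] {z : X} (hz : IsClosed {z}) :
    ∃ s : Spec (CommRingCat.of k) ⟶ X, s ≫ x = 𝟙 _ ∧ ∀ a, s.base a = z :=
  ⟨pointOfClosedPoint x z hz, pointOfClosedPoint_comp x z hz, pointOfClosedPoint_apply x z hz⟩

/-- Morphisms of a reduced scheme agreeing on rational points are equal. -/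
theorem ext_of_points {X Y : Scheme.{u}} [IsReduced X] (x : X ⟶ Spec (CommRingCat.of k))
    [LocallyOfFiniteType x] (i : Y ⟶ Spec (CommRingCat.of k)) [LocallyOfFiniteType i]
    (f g : X ⟶ Y) (hf : f ≫ i = x) (hg : g ≫ i = x)
    (h : ∀ s : Spec (CommRingCat.of k) ⟶ X, s ≫ x = 𝟙 _ → s ≫ f = s ≫ g) : f = g := by
  haveI : JacobsonSpace X := LocallyOfFiniteType.jacobsonSpace x
  have hcl : ∀ z : X, IsClosed {z} → f.base z = g.base z := fun z hz => by
    obtain ⟨s, hs, hsz⟩ := exists_rational_point x hz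
    have e := congrArg (fun q : Spec (CommRingCat.of k) ⟶ Y =>
      q.base (IsLocalRing.closedPoint k)) (h s hs)
    simp only [Scheme.Hom.comp_apply, hsz] at e
    exact e
  have hpre : ∀ V : Y.Opens, f ⁻¹ᵁ V = g ⁻¹ᵁ V := fun V => by
    ext z
    by_contra hne
    have key : ∀ (a b : X ⟶ Y), (∀ w : X, IsClosed {w} → a.base w = b.base w) →
        z ∈ a ⁻¹ᵁ V → z ∉ b ⁻¹ᵁ V → False := fun a b hab ha hb => by
      obtain ⟨w, ⟨hwa, hwb⟩, hw⟩ := nonempty_inter_closedPoints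
        (Z := ((a ⁻¹ᵁ V : X.Opens) : Set X) ∩ ((b ⁻¹ᵁ V : X.Opens) : Set X)ᶜ) ⟨z, ha, hb⟩
        ((a ⁻¹ᵁ V).2.isLocallyClosed.inter (b ⁻¹ᵁ V).2.isClosed_compl.isLocallyClosed)
      exact hwb (show b.base w ∈ V from hab w hw ▸ hwa)
    by_cases hz : z ∈ f ⁻¹ᵁ V
    · exact key f g hcl hz fun hz' => hne (iff_of_true hz hz')
    · exact key g f (fun w hw => (hcl w hw).symm)
        (by by_contra hz'; exact hne (iff_of_false hz hz')) hz
  refine Scheme.Cover.hom_ext (𝒰 := Y.affineCover.pullback₁ f) _ _ fun l => ?_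
  let j := Y.affineCover.f l
  let a := pullback.fst f j
  show a ≫ f = a ≫ g
  have hr : Set.range (a ≫ g).base ⊆ Set.range j.base := by
    rintro _ ⟨w, rfl⟩
    have hw : a.base w ∈ f ⁻¹ᵁ j.opensRange :=
      ⟨(pullback.snd f j).base w, by
        rw [← Scheme.Hom.comp_apply, ← pullback.condition]; rfl⟩
    rw [hpre] at hw
    exact hw
  have ef : a ≫ f = pullback.snd f j ≫ j := pullback.condition
  have eg : a ≫ g = IsOpenImmersion.lift j (a ≫ g) hr ≫ j :=
    (IsOpenImmersion.lift_fac _ _ _).symm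
  rw [ef, eg]
  congr 1
  haveI : IsReduced (pullback f j) := isReduced_of_isOpenImmersion a
  haveI : IsAffine (Y.affineCover.X l) := inferInstance
  haveI : LocallyOfFiniteType ((pullback.snd f j) ≫ j ≫ i) := by
    rw [← Category.assoc, ← ef, Category.assoc, hf]; infer_instance
  refine ext_of_apply_eq (j ≫ i) Set.univ isOpen_univ.isLocallyClosed dense_univ
    (fun w _ hw => ?_) ?_
  · apply j.isOpenEmbedding.injective
    rw [← Scheme.Hom.comp_apply, ← Scheme.Hom.comp_apply, ← ef, ← eg, Scheme.Hom.comp_apply,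
      Scheme.Hom.comp_apply]
    refine hcl _ ?_
    have : w ∈ a.base ⁻¹' closedPoints X :=
      (a.isOpenEmbedding.preimage_closedPoints).symm ▸ hw
    exact this
  · rw [← Category.assoc, ← ef, ← Category.assoc, ← eg, Category.assoc, Category.assoc, hf, hg]

/-- A morphism hitting all rational points is surjective. -/
theorem surjective_of_points {X Y : Scheme.{u}} (p : X ⟶ Y) (i : Y ⟶ Spec (CommRingCat.of k))
    [LocallyOfFiniteType i] [IsProper (p ≫ i)]
    (h : ∀ s : Spec (CommRingCat.of k) ⟶ Y, s ≫ i = 𝟙 _ →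
      ∃ s' : Spec (CommRingCat.of k) ⟶ X, s' ≫ p = s) : Surjective p := by
  haveI : JacobsonSpace Y := LocallyOfFiniteType.jacobsonSpace i
  haveI : IsLocallyNoetherian Y := LocallyOfFiniteType.isLocallyNoetherian i
  haveI : IsLocallyNoetherian X := LocallyOfFiniteType.isLocallyNoetherian (p ≫ i)
  haveI : CompactSpace X := QuasiCompact.compactSpace_of_compactSpace (p ≫ i)
  haveI : IsNoetherian X := {}
  haveI : LocallyOfFiniteType p := locallyOfFiniteType_of_comp p i
  haveI : LocallyOfFinitePresentation p :=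
    LocallyOfFinitePresentation.iff_locallyOfFiniteType.2 inferInstance
  haveI : QuasiCompact p := inferInstance
  have hc := p.isLocallyConstructible_image IsLocallyConstructible.univ
  rw [Set.image_univ] at hc
  refine ⟨fun y => ?_⟩
  by_contra hy
  obtain ⟨U, hU, hUo, hUc⟩ := hc y
  have hyU : y ∈ U := mem_of_mem_nhds hU
  obtain ⟨W, hW, hyW, hWs⟩ := (exists_isLocallyClosed_mem hUc).2 Set.univ
    isOpen_univ.isLocallyClosed ⟨y, hyU⟩ ⟨trivial, fun hh => hy hh⟩
  have hW' : IsLocallyClosed (Subtype.val '' W) :=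
    hW.image hUo.isOpenEmbedding_subtypeVal.isInducing
      (by rw [Subtype.range_coe]; exact hUo.isLocallyClosed)
  obtain ⟨w, ⟨v, hv, rfl⟩, hw⟩ :=
    nonempty_inter_closedPoints (Z := Subtype.val '' W) ⟨y, ⟨y, hyU⟩, hyW, rfl⟩ hW'
  obtain ⟨s, hs, hsz⟩ := exists_rational_point i hw
  obtain ⟨s', hs'⟩ := h s hs
  refine (hWs hv).2 ⟨s'.base (IsLocalRing.closedPoint k), ?_⟩
  rw [← Scheme.Hom.comp_apply, hs', hsz]

end FLTAgent.Jac
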