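import Fermat.Agent.Jac.Cond
import Fermat.Agent.Jac.Surj.Algebra
import Fermat.Agent.Jac.Surj.Scheme

/-! # Adding a moving point to a family of bundles of degree zero -/

set_option autoImplicit false
set_option linter.style.haveILetI false
set_option linter.unusedSectionVars false

universe u

open CategoryTheory CategoryTheory.Limits AlgebraicGeometry AlgebraicGeometry.RelPicard
  NeronModelInfra

namespace FLTAgent.Jac

open LineData

variable {k : Type u} [Field k] {C : Scheme.{u}} {c : C ⟶ Spec (CommRingCat.of k)}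
  {ε : SchemeHomOver (𝟙 (Spec (CommRingCat.of k))) c} {M : Model k}

theorem specOver_self : specOver k k = 𝟙 (Spec (CommRingCat.of k)) := Spec.map_id _

theorem specHom_comp_val {A B D : Type u} [CommRing A] [Algebra k A] [CommRing B] [Algebra k B]
    [CommRing D] [Algebra k D] (f : A →ₐ[k] B) (g : B →ₐ[k] D) :
    (specHom (g.comp f)).1 = (specHom g).1 ≫ (specHom f).1 := by
  show Spec.map (CommRingCat.ofHom (g.comp f).toRingHom) =
    Spec.map (CommRingCat.ofHom g.toRingHom) ≫ Spec.map (CommRingCat.ofHom f.toRingHom)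
  rw [← Spec.map_comp]
  rfl

theorem isSubm_bc {A B : Type u} [CommRing A] [Algebra k A] [CommRing B] [Algebra k B]
    {f : A →ₐ[k] B} {L L' : LineData M A} {L₂ L₂' : LineData M B} {J : Ideal (M.Am A)} {r : ℕ}
    (hJ : IsDivDeg (M := M.swap) J r) (h : IsSubm L L' J) (b : IsBC f L L₂)
    (b' : IsBC f L' L₂') : IsSubm L₂ L₂' (J.map (M.mapM f)) := by
  obtain ⟨g, h1, h2, h3, h4, h5⟩ :=
    IsSub.bc (M := M.swap) hJ (toSwap_isSub h) (IsBC.swap b) (IsBC.swap b')
  exact ⟨(⟨g.fm, g.fp, g.fn, g.comm_m, g.comm_p⟩ : Hom L₂' L₂), h2, h1, h3, h4, h5⟩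

variable (φ : CurveChart c ε M)

/-- `L = Lp - ε + q` for the point `q`. -/
def StepPt (q : Spec (CommRingCat.of k) ⟶ C) (Lp L : LineData M k) : Prop :=
  ∃ D : LineData M k, IsSubm Lp D (epsIdeal φ.e k) ∧
    ((∃ σ : M.Rp →ₐ[k] k, (specHom σ).1 ≫ φ.jp = q ∧ IsSub L D (RingHom.ker (M.ptP σ))) ∨
      ∃ σ : M.Rm →ₐ[k] k, (specHom σ).1 ≫ φ.jm = q ∧ IsSubm L D (RingHom.ker (M.ptM σ)))

variable {φ}

theorem stepPt_congr {q : Spec (CommRingCat.of k) ⟶ C} {Lp Lp' L L' : LineData M k}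
    (e : Equivalent Lp Lp') (e' : Equivalent L L') (h : StepPt φ q Lp L) :
    StepPt φ q Lp' L' := by
  obtain ⟨D, hD, h⟩ := h
  refine ⟨D, isSubm_congr hD e (Equivalent.refl D), h.imp ?_ ?_⟩
  · exact fun ⟨σ, hσ, hs⟩ => ⟨σ, hσ, IsSub.congr hs e' (Equivalent.refl D)⟩
  · exact fun ⟨σ, hσ, hs⟩ => ⟨σ, hσ, isSubm_congr hs e' (Equivalent.refl D)⟩

theorem exists_stepPt_of_step {Lp L : LineData M k} (h : Step φ.e Lp L) :
    ∃ q : Spec (CommRingCat.of k) ⟶ C, q ≫ c = 𝟙 _ ∧ StepPt φ q Lp L := by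
  obtain ⟨D, hD, ⟨σ, hs⟩ | ⟨σ, hs⟩⟩ := h
  · refine ⟨(specHom σ).1 ≫ φ.jp, ?_, D, hD, Or.inl ⟨σ, rfl, hs⟩⟩
    rw [Category.assoc, φ.jp_over]
    exact (specHom σ).2.trans specOver_self
  · refine ⟨(specHom σ).1 ≫ φ.jm, ?_, D, hD, Or.inr ⟨σ, rfl, hs⟩⟩
    rw [Category.assoc, φ.jm_over]
    exact (specHom σ).2.trans specOver_self

theorem algHom_eq_of_comp_eq {R : Type u} [CommRing R] [Algebra k R] {σ τ : R →ₐ[k] k}
    {j : Spec (CommRingCat.of R) ⟶ C} [IsOpenImmersion j]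
    (h : (specHom σ).1 ≫ j = (specHom τ).1 ≫ j) : σ = τ := by
  have h' := Spec.map_injective (cancel_mono j |>.1 h)
  exact AlgHom.ext fun r =>
    congrArg (fun g : CommRingCat.of R ⟶ CommRingCat.of k => g.hom r) h'

theorem exists_overlap_point {σ : M.Rp →ₐ[k] k} {τ : M.Rm →ₐ[k] k}
    (h : (specHom σ).1 ≫ φ.jp = (specHom τ).1 ≫ φ.jm) :
    ∃ π : M.Rpm →ₐ[k] k, π.comp M.ip = σ ∧ π.comp M.im = τ := by
  set r := φ.overlap.lift (specHom σ).1 (specHom τ).1 h
  have h1 : r ≫ (specHom M.ip).1 = (specHom σ).1 := φ.overlap.lift_fst _ _ _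
  have h2 : r ≫ (specHom M.im).1 = (specHom τ).1 := φ.overlap.lift_snd _ _ _
  have hr : r ≫ specOver k M.Rpm = specOver k k := by
    rw [← (specHom M.ip).2, ← Category.assoc, h1]
    exact (specHom σ).2
  obtain ⟨π, hπ⟩ := exists_specHom (A := M.Rpm) ⟨r, hr⟩
  have hπ' : (specHom π).1 = r := congrArg Subtype.val hπ
  refine ⟨π, ?_, ?_⟩
  · apply algHom_eq_of_comp_eq (j := 𝟙 _)
    rw [Category.comp_id, Category.comp_id, ← h1, ← hπ']
    rw [specHom_comp_val]
  · apply algHom_eq_of_comp_eq (j := 𝟙 _)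
    rw [Category.comp_id, Category.comp_id, ← h2, ← hπ']
    rw [specHom_comp_val]

theorem stepPt_unique [IsAlgClosed k] {q : Spec (CommRingCat.of k) ⟶ C} {Lp L L' : LineData M k}
    (h : StepPt φ q Lp L) (h' : StepPt φ q Lp L') : Equivalent L L' := by
  obtain ⟨D, hD, h⟩ := h
  obtain ⟨D', hD', h'⟩ := h'
  have eD : Equivalent D' D := isSubm_unique hD' hD
  rcases h with ⟨σ, hσ, hs⟩ | ⟨σ, hσ, hs⟩ <;> rcases h' with ⟨τ, hτ, ht⟩ | ⟨τ, hτ, ht⟩
  · obtain rfl : σ = τ := algHom_eq_of_comp_eq (hσ.trans hτ.symm)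
    exact IsSub.unique_left (isDivDeg_ker_ptP σ) hs
      (IsSub.congr ht (Equivalent.refl L') eD)
  · obtain ⟨π, rfl, rfl⟩ := exists_overlap_point (hσ.trans hτ.symm)
    exact isSubm_unique_left (isDivDeg_ker_ptP (M := M.swap) (π.comp M.im))
      (isSubm_of_overlap π hs) (isSubm_congr ht (Equivalent.refl L') eD)
  · obtain ⟨π, rfl, rfl⟩ := exists_overlap_point (hτ.trans hσ.symm)
    exact isSubm_unique_left (isDivDeg_ker_ptP (M := M.swap) (π.comp M.im))
      hs (isSubm_of_overlap π (IsSub.congr ht (Equivalent.refl L') eD))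
  · obtain rfl : σ = τ := algHom_eq_of_comp_eq (hσ.trans hτ.symm)
    exact isSubm_unique_left (isDivDeg_ker_ptP (M := M.swap) σ) hs
      (isSubm_congr ht (Equivalent.refl L') eD)

variable (φ)

/-- Maps into the representing scheme with equivalent data agree. -/
theorem subRep_point_unique (E : SubRep (degZero φ)) {A : Type u} [CommRing A] [Algebra k A]
    {ψ ψ' : SchemeHomOver (specOver k A) E.toBase} {L L' : LineData M A}
    (h : Realizes φ L (E.poincare.pullbackAlong ψ).L)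
    (h' : Realizes φ L' (E.poincare.pullbackAlong ψ').L) (e : Equivalent L L') : ψ = ψ' :=
  (E.univ _ (E.poincare.pullbackAlong ψ')
    ((degZero φ).pullback_mem _ _ ψ' _ E.poincare_mem)).unique
      ((realizes_iso_iff φ h h').mpr e) ⟨Iso.refl _⟩

/-- Data of degree zero are, locally on the base, pulled back from the representing scheme. -/
theorem exists_map_nhd (E : SubRep (degZero φ)) {A₀ : Type u} [CommRing A₀] [Algebra k A₀]
    {L₀ : LineData M A₀} (hdeg : L₀.FibreDeg 0) (z : Spec (CommRingCat.of A₀)) :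
    ∃ (A : Type u) (_ : CommRing A) (_ : Algebra k A) (f : A₀ →ₐ[k] A)
      (G : SchemeHomOver (specOver k A) E.toBase) (L₁ : LineData M A),
      IsOpenImmersion (specHom f).1 ∧ z ∈ Set.range (specHom f).1.base ∧ IsBC f L₀ L₁ ∧
        ∃ LG, Realizes φ LG (E.poincare.pullbackAlong G).L ∧ Equivalent L₁ LG := by
  obtain ⟨F, hF, hFr⟩ := exists_sheaf φ L₀
  obtain ⟨U, hzU, ⟨eU⟩⟩ :=
    (hF.pullback (rigSection c (specOver k A₀) ε)).exists_trivialization z
  obtain ⟨A, iA, iA', ψ, hψ, hzψ, hψU⟩ := exists_affine_nhd (specOver k A₀) z U hzU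
  obtain ⟨f, rfl⟩ := exists_specHom ψ
  obtain ⟨L₁, hL₁⟩ := exists_bc f L₀
  have hr : Set.range (specHom f).1.base ⊆ Set.range U.ι.base := by
    rw [Scheme.Opens.range_ι]; exact hψU
  let F' := (Scheme.Modules.pullback (baseChangeSnd c (specHom f))).obj F
  let Mb : RigidifiedLineBundle c ε (specOver k A) :=
    ⟨F', hF.pullback _, ⟨(Scheme.Modules.pullbackComp _ _).app F ≪≫
      (Scheme.Modules.pullbackCongr (rigSection_baseChangeSnd c ε (specHom f))).app F ≪≫
      ((Scheme.Modules.pullbackComp _ _).app F).symm ≪≫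
      (Scheme.Modules.pullbackCongr (IsOpenImmersion.lift_fac U.ι (specHom f).1 hr).symm).app _ ≪≫
      ((Scheme.Modules.pullbackComp _ _).app _).symm ≪≫
      (Scheme.Modules.pullback (IsOpenImmersion.lift U.ι (specHom f).1 hr)).mapIso eU ≪≫
      Scheme.Modules.pullbackUnitIso _⟩⟩
  have hMb : Realizes φ L₁ Mb.L := realizes_pullback φ f hFr hL₁
  have hdeg₁ : L₁.FibreDeg 0 := fun K _ _ _ g L' hL' => hdeg K (g.comp f) L' (IsBC.trans hL₁ hL')
  obtain ⟨G, ⟨iG⟩, -⟩ := E.univ _ Mb (degZero_of_fibreDeg φ Mb hMb hdeg₁)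
  obtain ⟨LG, hLG⟩ := exists_realizes_pullback φ E.poincare G
  exact ⟨A, iA, iA', f, G, L₁, hψ, hzψ, hL₁, LG, hLG,
    (realizes_iso_iff φ hMb hLG).mp ⟨iG.symm⟩⟩

/-- The family `G` consists of the bundles `p - ε + q` over the points of `Spec A`. -/
def IsStepFamily (E : SubRep (degZero φ)) {T : Scheme.{u}} {t : T ⟶ Spec (CommRingCat.of k)}
    (q : T ⟶ C) (p G : SchemeHomOver t E.toBase) : Prop :=
  ∀ (s : SchemeHomOver (specOver k k) t) (Lp L : LineData M k),
    Realizes φ Lp (E.poincare.pullbackAlong (postComp p s)).L →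
      Realizes φ L (E.poincare.pullbackAlong (postComp G s)).L → StepPt φ (s.1 ≫ q) Lp L

/-- Locally on a base mapping to `C`, the family `p - ε + q` exists. -/
theorem exists_stepFamily_nhd (E : SubRep (degZero φ)) {A₀ : Type u} [CommRing A₀]
    [Algebra k A₀] (p : SchemeHomOver (specOver k A₀) E.toBase)
    (q : SchemeHomOver (specOver k A₀) c)
    (hq : Set.range q.1.base ⊆ Set.range φ.jp.base ∨ Set.range q.1.base ⊆ Set.range φ.jm.base)
    (z : Spec (CommRingCat.of A₀)) :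
    ∃ (A : Type u) (_ : CommRing A) (_ : Algebra k A) (f : A₀ →ₐ[k] A)
      (G : SchemeHomOver (specOver k A) E.toBase),
      IsOpenImmersion (specHom f).1 ∧ z ∈ Set.range (specHom f).1.base ∧
        IsStepFamily φ E ((specHom f).1 ≫ q.1) (postComp p (specHom f)) G := by
  obtain ⟨Lp₀, hLp₀⟩ := exists_realizes_pullback φ E.poincare p
  obtain ⟨D₀, hD₀⟩ := exists_isSubm Lp₀ (isDivDeg_epsIdeal (A := A₀) φ.e)
  obtain ⟨L₀, hchi, hstep⟩ : ∃ L₀ : LineData M A₀,
      (∀ (K : Type u) [Field K] [Algebra k K] (g : A₀ →ₐ[k] K) (D L : LineData M K),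
        IsBC g D₀ D → IsBC g L₀ L → D.chi = L.chi - 1) ∧
      ∀ (g : A₀ →ₐ[k] k) (D L : LineData M k), IsBC g D₀ D → IsBC g L₀ L →
        ((∃ σ : M.Rp →ₐ[k] k, (specHom σ).1 ≫ φ.jp = (specHom g).1 ≫ q.1 ∧
            IsSub L D (RingHom.ker (M.ptP σ))) ∨
          ∃ σ : M.Rm →ₐ[k] k, (specHom σ).1 ≫ φ.jm = (specHom g).1 ≫ q.1 ∧
            IsSubm L D (RingHom.ker (M.ptM σ))) := by
    rcases hq with hq | hq
    · have hr : IsOpenImmersion.lift φ.jp q.1 hq ≫ specOver k M.Rp = specOver k A₀ := by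
        rw [show specOver k M.Rp = φ.jp ≫ c from φ.jp_over.symm, ← Category.assoc, IsOpenImmersion.lift_fac]
        exact q.2
      obtain ⟨σ, hσ⟩ := exists_specHom (A := M.Rp) ⟨_, hr⟩
      have hσ' : (specHom σ).1 ≫ φ.jp = q.1 := by
        rw [congrArg Subtype.val hσ]; exact IsOpenImmersion.lift_fac _ _ _
      obtain ⟨L₀, hL₀⟩ := exists_isSub_of_right D₀ (isDivDeg_ker_ptP σ)
      refine ⟨L₀, fun K _ _ g D L hD hL => ?_, fun g D L hD hL => Or.inl ⟨g.comp σ, ?_, ?_⟩⟩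
      · have h := IsSub.bc (isDivDeg_ker_ptP σ) hL₀ hL hD
        rw [map_ker_ptP] at h
        simpa using isSub_chi (isDivDeg_ker_ptP _) h
      · rw [← hσ', ← Category.assoc]
        congr 1
        rw [specHom_comp_val]
      · rw [← map_ker_ptP]
        exact IsSub.bc (isDivDeg_ker_ptP σ) hL₀ hL hD
    · have hr : IsOpenImmersion.lift φ.jm q.1 hq ≫ specOver k M.Rm = specOver k A₀ := by
        rw [show specOver k M.Rm = φ.jm ≫ c from φ.jm_over.symm, ← Category.assoc, IsOpenImmersion.lift_fac]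
        exact q.2
      obtain ⟨σ, hσ⟩ := exists_specHom (A := M.Rm) ⟨_, hr⟩
      have hσ' : (specHom σ).1 ≫ φ.jm = q.1 := by
        rw [congrArg Subtype.val hσ]; exact IsOpenImmersion.lift_fac _ _ _
      have hdiv : IsDivDeg (M := M.swap) (RingHom.ker (M.ptM σ)) 1 :=
        isDivDeg_ker_ptP (M := M.swap) σ
      obtain ⟨L₀, hL₀⟩ := exists_isSubm_of_right D₀ hdiv
      refine ⟨L₀, fun K _ _ g D L hD hL => ?_, fun g D L hD hL => Or.inr ⟨g.comp σ, ?_, ?_⟩⟩
      · have h := isSubm_bc hdiv hL₀ hL hD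
        rw [map_ker_ptM] at h
        simpa using isSubm_chi (isDivDeg_ker_ptP (M := M.swap) (g.comp σ)) h
      · rw [← hσ', ← Category.assoc]
        congr 1
        rw [specHom_comp_val]
      · rw [← map_ker_ptM]
        exact isSubm_bc hdiv hL₀ hL hD
  have hdeg : L₀.FibreDeg 0 := by
    intro K _ _ _ g L hL
    obtain ⟨Lp, hLp⟩ := exists_bc g Lp₀
    obtain ⟨D, hD⟩ := exists_bc g D₀
    have h := isSubm_bc (isDivDeg_epsIdeal φ.e) hD₀ hLp hD
    rw [map_epsIdeal] at h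
    have h1 := isSubm_chi (isDivDeg_epsIdeal (A := K) φ.e) h
    have h2 := hchi K g D L hD hL
    have h3 := fibreDeg_of_degZero φ E.poincare_mem p hLp₀ K g Lp hLp
    omega
  obtain ⟨A, iA, iA', f, G, L₁, hf, hz, hL₁, LG, hLG, eG⟩ := exists_map_nhd φ E hdeg z
  refine ⟨A, iA, iA', f, G, hf, hz, fun s Lp L hLp hL => ?_⟩
  obtain ⟨g, rfl⟩ := exists_specHom s
  have hcomp : postComp (postComp p (specHom f)) (specHom g) = postComp p (specHom (g.comp f)) := by
    apply Subtype.ext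
    show (specHom g).1 ≫ (specHom f).1 ≫ p.1 = (specHom (g.comp f)).1 ≫ p.1
    rw [← Category.assoc]
    congr 1
    rw [specHom_comp_val]
  rw [hcomp] at hLp
  have bp : IsBC (g.comp f) Lp₀ Lp := isBC_of_realizes φ E.poincare _ p _ rfl hLp₀ hLp
  have bL : IsBC (g.comp f) L₀ L :=
    IsBC.trans hL₁ (IsBC.congr (isBC_of_realizes φ E.poincare g G _ rfl hLG hL)
      (Equivalent.symm eG) (Equivalent.refl L))
  obtain ⟨D, hD⟩ := exists_bc (g.comp f) D₀
  have h := isSubm_bc (isDivDeg_epsIdeal φ.e) hD₀ bp hD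
  rw [map_epsIdeal] at h
  have e : (specHom g).1 ≫ (specHom f).1 ≫ q.1 = (specHom (g.comp f)).1 ≫ q.1 := by
    rw [← Category.assoc]
    congr 1
    rw [specHom_comp_val]
  refine ⟨D, h, ?_⟩
  rw [e]
  exact hstep (g.comp f) D L hD bL

end FLTAgent.Jac
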