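import Fermat.Agent.Jac.GeomIntegral
import Fermat.Agent.Jac.Surj.Step

/-! # Powers of the curve mapping to the representing scheme -/

set_option autoImplicit false
set_option linter.style.haveILetI false
set_option linter.unusedSectionVars false

universe u

open CategoryTheory CategoryTheory.Limits AlgebraicGeometry AlgebraicGeometry.RelPicard
  NeronModelInfra

namespace FLTAgent.Jac

open LineData

variable {k : Type u} [Field k] {C : Scheme.{u}} {c : C ⟶ Spec (CommRingCat.of k)}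
  {ε : SchemeHomOver (𝟙 (Spec (CommRingCat.of k))) c} {M : Model k} (φ : CurveChart c ε M)

/-- The bundles reached in `j` steps occur among the values of `p` at rational points. -/
def CoversReach (E : SubRep (degZero φ)) (j : ℕ) {X : Scheme.{u}}
    (x : X ⟶ Spec (CommRingCat.of k)) (p : SchemeHomOver x E.toBase) : Prop :=
  ∀ L : LineData M k, Reach φ.e j L →
    ∃ (s : SchemeHomOver (specOver k k) x) (L' : LineData M k),
      Realizes φ L' (E.poincare.pullbackAlong (postComp p s)).L ∧ Equivalent L' L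

variable {φ}

theorem isStepFamily_congr {E : SubRep (degZero φ)} {T : Scheme.{u}}
    {t t' : T ⟶ Spec (CommRingCat.of k)} (h : t' = t) {q q' : T ⟶ C}
    {p G : SchemeHomOver t E.toBase} {p' G' : SchemeHomOver t' E.toBase} (hq : q' = q)
    (hp : p'.1 = p.1) (hG : G'.1 = G.1) (hf : IsStepFamily φ E q p G) :
    IsStepFamily φ E q' p' G' := by
  subst h hq
  obtain rfl : p' = p := Subtype.ext hp
  obtain rfl : G' = G := Subtype.ext hG
  exact hf

theorem exists_base (φ : CurveChart c ε M) (E : SubRep (degZero φ)) :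
    ∃ (X : Scheme.{u}) (x : X ⟶ Spec (CommRingCat.of k)) (p : SchemeHomOver x E.toBase),
      IsIntegral X ∧ IsProper x ∧ CoversReach φ E 0 x p := by
  let U₀ : RigidifiedLineBundle c ε (specOver k k) := RigidifiedLineBundle.unit _
  have hU₀ : Realizes φ (LineData.unit M k) U₀.L := realizes_unit φ
  have hdeg : (LineData.unit M k).FibreDeg 0 := by
    intro K _ _ _ f L hL
    rw [chi_congr (IsBC.unique hL (isBC_unit f)), add_zero, chi_unit, chi_unit]
  obtain ⟨p, ⟨ip⟩, -⟩ := E.univ _ U₀ (degZero_of_fibreDeg φ U₀ hU₀ hdeg)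
  refine ⟨Spec (CommRingCat.of k), specOver k k, p, inferInstance, ?_, fun L hL => ?_⟩
  · rw [specOver_self]; infer_instance
  · obtain ⟨L', hL'⟩ := exists_realizes_pullback φ E.poincare
      (postComp p ⟨𝟙 _, Category.id_comp _⟩)
    refine ⟨⟨𝟙 _, Category.id_comp _⟩, L', hL', ?_⟩
    have hp : postComp p ⟨𝟙 _, Category.id_comp _⟩ = p := Subtype.ext (Category.id_comp _)
    rw [hp] at hL'
    exact Equivalent.trans ((realizes_iso_iff φ hL' hU₀).mp ⟨ip⟩) hL

theorem exists_succ [IsAlgClosed k] [IsProper c] [SmoothOfRelativeDimension 1 c] [IsIntegral C]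
    (φ : CurveChart c ε M) (E : SubRep (degZero φ)) [LocallyOfFiniteType E.toBase] {j : ℕ}
    {X : Scheme.{u}} (x : X ⟶ Spec (CommRingCat.of k)) (p : SchemeHomOver x E.toBase)
    [IsIntegral X] [IsProper x] (hp : CoversReach φ E j x p) :
    ∃ (X' : Scheme.{u}) (x' : X' ⟶ Spec (CommRingCat.of k)) (p' : SchemeHomOver x' E.toBase),
      IsIntegral X' ∧ IsProper x' ∧ CoversReach φ E (j + 1) x' p' := by
  haveI := geometricallyIntegral_of_isIntegral c
  haveI : IsLocallyNoetherian X := LocallyOfFiniteType.isLocallyNoetherian x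
  haveI : Smooth c := SmoothOfRelativeDimension.smooth 1 c
  haveI hint : IsIntegral (pullback c x) := inferInstance
  set x' := pullback.snd c x ≫ x
  haveI : IsProper x' := inferInstance
  let q : SchemeHomOver x' c := ⟨pullback.fst c x, pullback.condition⟩
  let pb : SchemeHomOver x' E.toBase := postComp p ⟨pullback.snd c x, rfl⟩
  have hloc : ∀ z : (pullback c x : Scheme.{u}), ∃ (W : Scheme.{u}) (ι : W ⟶ pullback c x)
      (G : SchemeHomOver (ι ≫ x') E.toBase), IsOpenImmersion ι ∧ z ∈ Set.range ι.base ∧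
        IsStepFamily φ E (ι ≫ q.1) (postComp pb (overMap x' ι)) G := by
    intro z
    obtain ⟨U, hzU, hU⟩ : ∃ U : (pullback c x).Opens, z ∈ U ∧
        (Set.image q.1.base (U : Set (pullback c x : Scheme.{u})) ⊆ Set.range φ.jp.base ∨
          Set.image q.1.base (U : Set (pullback c x : Scheme.{u})) ⊆ Set.range φ.jm.base) := by
      rcases φ.cover (q.1.base z) with h | h
      · exact ⟨q.1 ⁻¹ᵁ φ.jp.opensRange, h, Or.inl (by rintro _ ⟨w, hw, rfl⟩; exact hw)⟩
      · exact ⟨q.1 ⁻¹ᵁ φ.jm.opensRange, h, Or.inr (by rintro _ ⟨w, hw, rfl⟩; exact hw)⟩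
    obtain ⟨A₀, _, _, ψ, hψ, ⟨z₀, hz₀⟩, hψU⟩ := exists_affine_nhd x' z U hzU
    haveI := hψ
    have hr : Set.range (postComp q ψ).1.base ⊆ Set.image q.1.base (U : Set _) := by
      rintro _ ⟨w, rfl⟩
      exact ⟨ψ.1.base w, hψU ⟨w, rfl⟩, rfl⟩
    obtain ⟨A, _, _, f, G, hf, ⟨w, hw⟩, hfam⟩ := exists_stepFamily_nhd φ E (postComp pb ψ)
      (postComp q ψ) (hU.imp hr.trans hr.trans) z₀
    haveI := hf
    have ht : ((specHom f).1 ≫ ψ.1) ≫ x' = specOver k A := by
      rw [Category.assoc, ψ.2]; exact (specHom f).2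
    refine ⟨_, (specHom f).1 ≫ ψ.1, ⟨G.1, G.2.trans ht.symm⟩, inferInstance, ⟨w, ?_⟩, ?_⟩
    · rw [Scheme.Hom.comp_apply, hw, hz₀]
    · exact isStepFamily_congr ht (Category.assoc _ _ _) (Category.assoc _ _ _) rfl hfam
  choose W ι G hι hz hfam using hloc
  let 𝒰 : Scheme.OpenCover.{u} (pullback c x) :=
    Scheme.Cover.mkOfCovers (pullback c x : Scheme.{u}) W ι
      (fun z => ⟨z, (hz z).choose, (hz z).choose_spec⟩) hι
  have hagree : ∀ a b, pullback.fst (𝒰.f a) (𝒰.f b) ≫ (G a).1 =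
      pullback.snd (𝒰.f a) (𝒰.f b) ≫ (G b).1 := by
    intro a b
    haveI := hι a
    haveI := hι b
    show pullback.fst (ι a) (ι b) ≫ (G a).1 = pullback.snd (ι a) (ι b) ≫ (G b).1
    haveI : IsReduced (pullback (ι a) (ι b)) :=
      isReduced_of_isOpenImmersion (pullback.fst (ι a) (ι b) ≫ ι a)
    refine ext_of_points (pullback.fst (ι a) (ι b) ≫ ι a ≫ x') E.toBase _ _
      (by rw [Category.assoc, (G a).2]) (by rw [Category.assoc, (G b).2, pullback.condition_assoc])
      fun s hs => ?_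
    let sa : SchemeHomOver (specOver k k) (ι a ≫ x') :=
      ⟨s ≫ pullback.fst _ _, by rw [Category.assoc, hs, specOver_self]⟩
    let sb : SchemeHomOver (specOver k k) (ι b ≫ x') :=
      ⟨s ≫ pullback.snd _ _, by
        rw [Category.assoc, ← pullback.condition_assoc, hs, specOver_self]⟩
    have heq : postComp (postComp pb (overMap x' (ι a))) sa =
        postComp (postComp pb (overMap x' (ι b))) sb := by
      apply Subtype.ext
      show (s ≫ pullback.fst (ι a) (ι b)) ≫ ι a ≫ pb.1 =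
        (s ≫ pullback.snd (ι a) (ι b)) ≫ ι b ≫ pb.1
      rw [Category.assoc, Category.assoc, pullback.condition_assoc]
    have heq' : (s ≫ pullback.snd (ι a) (ι b)) ≫ ι b ≫ q.1 =
        (s ≫ pullback.fst (ι a) (ι b)) ≫ ι a ≫ q.1 := by
      rw [Category.assoc, Category.assoc, pullback.condition_assoc]
    obtain ⟨Lp, hLp⟩ := exists_realizes_pullback φ E.poincare
      (postComp (postComp pb (overMap x' (ι a))) sa)
    obtain ⟨La, hLa⟩ := exists_realizes_pullback φ E.poincare (postComp (G a) sa)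
    obtain ⟨Lb, hLb⟩ := exists_realizes_pullback φ E.poincare (postComp (G b) sb)
    have ha := hfam a sa Lp La hLp hLa
    have hb := hfam b sb Lp Lb (heq ▸ hLp) hLb
    change StepPt φ ((s ≫ pullback.snd (ι a) (ι b)) ≫ ι b ≫ q.1) Lp Lb at hb
    rw [heq'] at hb
    have h := congrArg Subtype.val (subRep_point_unique φ E hLa hLb (stepPt_unique ha hb))
    simpa [sa, sb, postComp] using h
  let g := 𝒰.glueMorphisms (fun a => (G a).1) hagree
  have hg : g ≫ E.toBase = x' := by
    refine Scheme.Cover.hom_ext (𝒰 := 𝒰) _ _ fun a => ?_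
    rw [← Category.assoc, Scheme.Cover.ι_glueMorphisms]
    exact (G a).2
  refine ⟨_, x', ⟨g, hg⟩, hint, inferInstance, fun L hL => ?_⟩
  obtain ⟨Lp, hLp, hstep⟩ := hL
  obtain ⟨q₀, hq₀, hst⟩ := exists_stepPt_of_step hstep
  obtain ⟨s₀, Lp', hLp', eLp⟩ := hp Lp hLp
  let s : SchemeHomOver (specOver k k) x' :=
    ⟨pullback.lift q₀ s₀.1 (by rw [hq₀, s₀.2, specOver_self]),
      by rw [pullback.lift_snd_assoc, s₀.2]⟩
  set z : (pullback c x : Scheme.{u}) := s.1.base (IsLocalRing.closedPoint k)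
  haveI := hι z
  have hr : Set.range s.1.base ⊆ Set.range (ι z).base := by
    rintro _ ⟨w, rfl⟩
    rw [Subsingleton.elim w (IsLocalRing.closedPoint k)]
    exact hz z
  let sz : SchemeHomOver (specOver k k) (ι z ≫ x') :=
    ⟨IsOpenImmersion.lift (ι z) s.1 hr, by rw [IsOpenImmersion.lift_fac_assoc]; exact s.2⟩
  obtain ⟨LG, hLG⟩ := exists_realizes_pullback φ E.poincare (postComp (G z) sz)
  have hpz : postComp (postComp pb (overMap x' (ι z))) sz = postComp p s₀ := by
    apply Subtype.ext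
    show IsOpenImmersion.lift (ι z) s.1 hr ≫ ι z ≫ pullback.snd c x ≫ p.1 = s₀.1 ≫ p.1
    rw [IsOpenImmersion.lift_fac_assoc, pullback.lift_snd_assoc]
  have h := hfam z sz Lp' LG (hpz.symm ▸ hLp') hLG
  have hqz : sz.1 ≫ ι z ≫ q.1 = q₀ := by
    show IsOpenImmersion.lift (ι z) s.1 hr ≫ ι z ≫ pullback.fst c x = q₀
    rw [IsOpenImmersion.lift_fac_assoc, pullback.lift_fst]
  rw [hqz] at h
  refine ⟨s, LG, ?_,
    stepPt_unique h (stepPt_congr (Equivalent.symm eLp) (Equivalent.refl L) hst)⟩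
  have hGs : postComp (⟨g, hg⟩ : SchemeHomOver x' E.toBase) s = postComp (G z) sz := by
    apply Subtype.ext
    show s.1 ≫ g = IsOpenImmersion.lift (ι z) s.1 hr ≫ (G z).1
    have hgz : ι z ≫ g = (G z).1 := Scheme.Cover.ι_glueMorphisms 𝒰 _ hagree z
    rw [← hgz, IsOpenImmersion.lift_fac_assoc]
  rw [hGs]
  exact hLG

theorem exists_coversReach [IsAlgClosed k] [IsProper c] [SmoothOfRelativeDimension 1 c]
    [IsIntegral C] (φ : CurveChart c ε M) (E : SubRep (degZero φ))
    [LocallyOfFiniteType E.toBase] (j : ℕ) :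
    ∃ (X : Scheme.{u}) (x : X ⟶ Spec (CommRingCat.of k)) (p : SchemeHomOver x E.toBase),
      IsIntegral X ∧ IsProper x ∧ CoversReach φ E j x p := by
  induction j with
  | zero => exact exists_base φ E
  | succ j ih =>
    obtain ⟨X, x, p, hX, hx, hp⟩ := ih
    exact exists_succ φ E x p hp

end FLTAgent.Jac
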